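import Fermat.Agent.ModularityLifting.PointsDatum.Reduced
import Fermat.Prelude.Def_CuspForm_HeckeGaloisRepDatum

/-!
# Algebras generated by a Hecke algebra away from the level are reduced

A finite free algebra over a domain of characteristic zero generated by the image of the Hecke
algebra away from the level is reduced: over an algebraic closure it acts semisimply on itself.
-/

set_option autoImplicit false

noncomputable section

open IsLocalRing Polynomial

namespace FLTAgent.SemistableOrdinary

open FLTAgent.HeckePoints FLTAgent.PointsDatum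

variable {O : Type} [CommRing O] [IsDomain O] [IsDiscreteValuationRing O] [CharZero O]
  {T : Type} [CommRing T] [Algebra O T] [Module.Finite O T] [Module.Free O T]

/-- An endomorphism killed by an integral polynomial squarefree over `ℚ` is semisimple. -/
theorem isSemisimple_of_intPoly {K : Type} [Field K] [CharZero K] {V : Type} [AddCommGroup V]
    [Module K V] {R : ℤ[X]} (hsq : Squarefree (R.map (Int.castRingHom ℚ))) (f : Module.End K V)
    (hf : aeval f R = 0) : f.IsSemisimple := by
  have h1 := (PerfectField.separable_iff_squarefree.mpr hsq).map (f := algebraMap ℚ K)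
  rw [Polynomial.map_map] at h1
  have hsq' : Squarefree (R.map (algebraMap ℤ K)) := by
    rw [show algebraMap ℤ K = (algebraMap ℚ K).comp (Int.castRingHom ℚ) from RingHom.ext_int _ _]
    exact h1.squarefree
  refine Module.End.isSemisimple_of_squarefree_aeval_eq_zero hsq' ?_
  rw [aeval_def, eval₂_map,
    show (algebraMap K (Module.End K V)).comp (algebraMap ℤ K) = algebraMap ℤ _ from
      RingHom.ext_int _ _, ← aeval_def, hf]

/-- **Reducedness.** -/
theorem isReduced_of_adjoin_hecke {N : ℕ} [NeZero N] {S : Set ℕ}
    (hNS : ∀ q : ℕ, q.Prime → q ∣ N → q ∈ S) (π : CuspForm.heckeAlgebra N 2 S →+* T)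
    (hgen : Algebra.adjoin O (Set.range π) = ⊤) : IsReduced T := by
  classical
  let b := Module.Free.chooseBasis O T
  let j : O →+* Kbar O := algebraMap O (Kbar O)
  let ev : T →+* Module.End (Kbar O) (Module.Free.ChooseBasisIndex O T → Kbar O) :=
    (Matrix.toLinAlgEquiv' (R := Kbar O)).toRingEquiv.toRingHom.comp
      (j.mapMatrix.comp (Algebra.leftMulMatrix b).toRingHom)
  have hinj : Function.Injective ev := fun x y h =>
    Algebra.leftMulMatrix_injective b (Matrix.map_injective (algebraMap_kbar_injective O)
      ((Matrix.toLinAlgEquiv' (R := Kbar O)).injective h))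
  have hcomm : ∀ x y, Commute (ev x) (ev y) := fun x y => (Commute.all x y).map ev
  have : CharZero (Kbar O) :=
    haveI : CharZero (FractionRing O) :=
      charZero_of_injective_ringHom (IsFractionRing.injective O (FractionRing O))
    charZero_of_injective_ringHom (algebraMap (FractionRing O) (Kbar O)).injective
  have hπ : ∀ t, (ev (π t)).IsSemisimple := by
    rintro ⟨t, ht⟩
    induction ht using Algebra.adjoin_induction with
    | mem x hx =>
      rcases hx with ⟨ℓ, hℓ, hℓN, hℓS, rfl⟩ | ⟨q, hqN, hq, hqS, rfl⟩
      · obtain ⟨R, hsq, hR⟩ := exists_squarefree_kill (L := N) hℓ hℓN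
        refine isSemisimple_of_intPoly hsq _ ?_
        have h0 : aeval (CuspForm.heckeAlgebra.T (k := 2) hℓ hℓN hℓS) R = 0 := Subtype.ext
          ((aeval_algHom_apply (CuspForm.heckeAlgebra N 2 S).val _ R).symm.trans hR)
        exact (map_aeval_int (ev.comp π) (CuspForm.heckeAlgebra.T (k := 2) hℓ hℓN hℓS) R).symm.trans
          (by rw [h0, map_zero])
      · exact absurd (hNS q hq hqN) hqS
    | algebraMap r =>
      show ((ev.comp π) (algebraMap ℤ (CuspForm.heckeAlgebra N 2 S) r)).IsSemisimple
      rw [eq_intCast, map_intCast, ← zsmul_one, ← Int.cast_smul_eq_zsmul (Kbar O)]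
      exact Module.End.IsSemisimple_smul _ Module.End.isSemisimple_id
    | add x y hx hy ihx ihy =>
      have h := ihx.add_of_commute (hcomm (π ⟨x, hx⟩) (π ⟨y, hy⟩)) ihy
      rwa [← map_add, ← map_add] at h
    | mul x y hx hy ihx ihy =>
      have h := ihx.mul_of_commute (hcomm (π ⟨x, hx⟩) (π ⟨y, hy⟩)) ihy
      rwa [← map_mul, ← map_mul] at h
  have hall : ∀ x : T, (ev x).IsSemisimple := by
    intro x
    have hx : x ∈ Algebra.adjoin O (Set.range π) := hgen ▸ Algebra.mem_top
    induction hx using Algebra.adjoin_induction with
    | mem y hy => obtain ⟨t, rfl⟩ := hy; exact hπ t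
    | algebraMap a =>
      have h : ev (algebraMap O T a) = j a • (1 : Module.End (Kbar O) _) := by
        refine LinearMap.ext fun v => funext fun i => ?_
        simp [ev, j, AlgHom.commutes, Matrix.algebraMap_eq_diagonal,
          Matrix.diagonal_map, Matrix.mulVec_diagonal, Algebra.smul_def]
      rw [h]
      exact Module.End.IsSemisimple_smul _ Module.End.isSemisimple_id
    | add y z _ _ ihy ihz =>
      rw [map_add]
      exact ihy.add_of_commute (hcomm y z) ihz
    | mul y z _ _ ihy ihz =>
      rw [map_mul]
      exact ihy.mul_of_commute (hcomm y z) ihz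
  exact ⟨fun x hx => hinj (by
    rw [map_zero]
    exact Module.End.eq_zero_of_isNilpotent_isSemisimple (hx.map ev) (hall x))⟩

end FLTAgent.SemistableOrdinary
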