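import Fermat.Agent.SemistableOrdinary.Points
import Fermat.Agent.SemistableOrdinary.Reduced
import Fermat.Agent.SemistableHecke.Unipotent
import Fermat.Agent.LocalThree.DetLine
import Fermat.Agent.DefRing.Setup
import Fermat.Agent.TateLocal.AtP

/-!
# The Hecke representation is ordinary at `p ∥ N` when its reduction is

The identity on inertia at all points of the Hecke algebra passes to the reduced algebra and
gives a stable line, so the representation is ordinary (`isOrdinaryAt_of_residual`, S33).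
-/

set_option autoImplicit false

noncomputable section

open IsLocalRing Matrix CongruenceSubgroup Polynomial
open scoped Pointwise

namespace FLTAgent.SemistableOrdinary

open FLTAgent.DefRing FLTAgent.ModularityLifting FLTAgent.GaloisAttach FLTAgent.HeckePoints
open FLTAgent.TWPrimes FLTAgent.LocalDuality
open FLTAgent.Density (GalQ Qbar)

/-- An element `τ₀` with eigenvalues `χ` and `1`, distinct modulo the maximal ideal, cuts out the
stable line of any subgroup normalised by `D` all of whose images are killed by `τ₀ - χ`. -/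
theorem exists_stable_line {R : Type} [CommRing R] [IsLocalRing R] {V : Type} [AddCommGroup V]
    [Module R V] (b : Module.Basis (Fin 2) R V) (ρ : GalQ →* Module.End R V) {τ₀ : GalQ}
    {I D : Subgroup GalQ} (hτ₀ : τ₀ ∈ I) (hnorm : ∀ σ ∈ D, ∀ τ ∈ I, σ * τ * σ⁻¹ ∈ I)
    (hχ : residue R (LinearMap.det (ρ τ₀)) ≠ 1)
    (hid : ∀ τ ∈ I, (ρ τ₀ - LinearMap.det (ρ τ₀) • 1) * (ρ τ - 1) = 0) :
    ∃ L : Submodule R V, (∃ b' : Module.Basis (Fin 2) R V, L = R ∙ b' 0) ∧
      (∀ σ ∈ D, ∀ v ∈ L, ρ σ v ∈ L) ∧ ∀ τ ∈ I, ∀ v, ρ τ v - v ∈ L := by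
  classical
  set χ := LinearMap.det (ρ τ₀) with hχdef
  set M := LinearMap.toMatrix b b (ρ τ₀) with hM
  have hdetM : residue R χ = (M.map (residue R)).det := by
    rw [hχdef, ← LinearMap.det_toMatrix b, ← hM, ← RingHom.mapMatrix_apply, ← RingHom.map_det]
  have h1χ : (1 : ResidueField R) - residue R χ ≠ 0 := sub_ne_zero.mpr hχ.symm
  have hne0 : residue R χ ≠ 0 := by
    rw [hχdef]
    exact (((Group.isUnit τ₀).map ρ).map LinearMap.det).map (residue R) |>.ne_zero
  obtain ⟨a, i, hai⟩ : ∃ a i, residue R ((M - 1) i a) ≠ 0 := by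
    by_contra! h
    refine hχ ?_
    rw [hdetM, show M.map (residue R) = 1 from Matrix.ext fun i a => ?_, Matrix.det_one]
    have := h a i
    rw [Matrix.sub_apply, map_sub, sub_eq_zero] at this
    rw [Matrix.map_apply, this, Matrix.one_apply, Matrix.one_apply, apply_ite (residue R), map_one,
      map_zero]
  obtain ⟨c, l, hcl⟩ : ∃ c l, residue R ((M - χ • 1) l c) ≠ 0 := by
    by_contra! h
    refine hχ ?_
    have e : M.map (residue R) = residue R χ • 1 := Matrix.ext fun i a => by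
      have := h a i
      rw [Matrix.sub_apply, map_sub, sub_eq_zero] at this
      rw [Matrix.map_apply, this, Matrix.smul_apply, Matrix.smul_apply, Matrix.one_apply,
        Matrix.one_apply, smul_eq_mul, smul_eq_mul, map_mul, apply_ite (residue R), map_one,
        map_zero]
    rw [e, Matrix.det_smul, Matrix.det_one, mul_one, Fintype.card_fin, pow_two] at hdetM
    exact mul_left_cancel₀ hne0 (by rw [mul_one]; exact hdetM.symm)
  set P := ρ τ₀ - χ • (1 : Module.End R V) with hP
  have hPm : LinearMap.toMatrix b b P = M - χ • 1 := by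
    rw [hP, map_sub, map_smul, LinearMap.toMatrix_one]
  have hkill : P * (ρ τ₀ - 1) = 0 := hid τ₀ hτ₀
  have hPP : P * P = (1 - χ) • P := by
    calc P * P = P * ((ρ τ₀ - 1) + (1 - χ) • 1) := by
          rw [hP]; congr 1; rw [sub_smul, one_smul]; abel
      _ = (1 - χ) • P := by rw [mul_add, hkill, zero_add, mul_smul_comm, mul_one]
  set v₀ := (ρ τ₀ - 1) (b a)
  set v₁ := P (b c)
  have hPv₀ : P v₀ = 0 := LinearMap.congr_fun hkill (b a)
  have hPv₁ : P v₁ = (1 - χ) • v₁ := LinearMap.congr_fun hPP (b c)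
  set G : Matrix (Fin 2) (Fin 2) R := Matrix.of fun i k => ![(M - 1) i a, (M - χ • 1) i c] k with hG
  -- the two columns are independent modulo the maximal ideal
  have hGdet : IsUnit G.det := by
    refine notMem_maximalIdeal.mp fun h => ?_
    rw [← residue_eq_zero_iff, RingHom.map_det] at h
    obtain ⟨w, hw0, hw⟩ := Matrix.exists_mulVec_eq_zero_iff.mpr h
    have hMP : (M - χ • 1) * (M - 1) = 0 := by
      rw [← hPm, show M - 1 = LinearMap.toMatrix b b (ρ τ₀ - 1) by
        rw [map_sub, LinearMap.toMatrix_one], ← LinearMap.toMatrix_mul, hkill, map_zero]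
    have hMM : (M - χ • 1) * (M - χ • 1) = (1 - χ) • (M - χ • 1) := by
      rw [← hPm, ← LinearMap.toMatrix_mul, hPP, map_smul]
    have hG' : (M - χ • 1) * G = Matrix.of fun i k => ![0, (1 - χ) * (M - χ • 1) i c] k := by
      ext i k
      fin_cases k
      · have := congrFun (congrFun hMP i) a
        simpa [hG, Matrix.mul_apply] using this
      · have := congrFun (congrFun hMM i) c
        simpa [hG, Matrix.mul_apply] using this
    have h2 := congrArg (fun X => (X.map (residue R)) *ᵥ w) hG'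
    simp only [Matrix.map_mul, ← Matrix.mulVec_mulVec] at h2
    rw [show G.map (residue R) *ᵥ w = 0 from hw, Matrix.mulVec_zero] at h2
    have hw1 : w 1 = 0 := by
      have := congrFun h2 l
      simp only [Matrix.mulVec, dotProduct, Fin.sum_univ_two, Matrix.map_apply, Matrix.of_apply,
        Matrix.cons_val_zero, Matrix.cons_val_one, map_zero, zero_mul, zero_add, map_mul, map_sub,
        map_one, Pi.zero_apply] at this
      exact ((mul_eq_zero.mp this.symm).resolve_left (mul_ne_zero h1χ hcl))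
    have hw2 := congrFun hw i
    simp only [hG, RingHom.mapMatrix_apply, Matrix.mulVec, dotProduct, Fin.sum_univ_two,
      Matrix.map_apply, Matrix.of_apply, Matrix.cons_val_zero, Matrix.cons_val_one, hw1, mul_zero,
      add_zero, Pi.zero_apply] at hw2
    exact hw0 (funext fun k => by
      fin_cases k
      · exact (mul_eq_zero.mp hw2).resolve_left hai
      · exact hw1)
  let b' := b.map (Matrix.toLinearEquiv b G hGdet)
  have hcol : ∀ k, b' k = ∑ i, G i k • b i := fun k => by
    rw [Module.Basis.map_apply]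
    show Matrix.toLin b b G (b k) = _
    rw [Matrix.toLin_self]
  have hsum : ∀ (f : Module.End R V) (k : Fin 2),
      ∑ i, LinearMap.toMatrix b b f i k • b i = f (b k) := fun f k => by
    simp only [LinearMap.toMatrix_apply]
    exact b.sum_repr _
  have hb0 : b' 0 = v₀ := by
    show b' 0 = (ρ τ₀ - 1) (b a)
    rw [hcol, ← hsum]
    simp [hG, hM, LinearMap.toMatrix_one]
  have hb1 : b' 1 = v₁ := by
    show b' 1 = P (b c)
    rw [hcol, ← hsum P c, hPm]
    simp [hG]
  have hmem : ∀ w, P w = 0 → w ∈ R ∙ b' 0 := fun w hw => by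
    rw [← b'.sum_repr w, Fin.sum_univ_two, map_add, map_smul, map_smul, hb0, hb1, hPv₀, hPv₁,
      smul_zero, zero_add, ← hb1, smul_smul] at hw
    have h0 := congrArg (fun z => b'.repr z 1) hw
    simp only [map_smul, Module.Basis.repr_self, Finsupp.smul_apply, Finsupp.single_eq_same,
      smul_eq_mul, mul_one, map_zero, Finsupp.coe_zero, Pi.zero_apply] at h0
    have hu : IsUnit (1 - χ) := notMem_maximalIdeal.mp fun hm => h1χ (by
      rw [← map_one (residue R), ← map_sub]; exact (residue_eq_zero_iff _).mpr hm)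
    rw [← b'.sum_repr w, Fin.sum_univ_two, hu.mul_left_eq_zero.mp h0, zero_smul, add_zero]
    exact Submodule.smul_mem _ _ (Submodule.mem_span_singleton_self _)
  refine ⟨R ∙ b' 0, ⟨b', rfl⟩, fun σ hσ v hv => ?_, fun τ hτ v => hmem _ ?_⟩
  · obtain ⟨r, rfl⟩ := Submodule.mem_span_singleton.mp hv
    rw [map_smul]
    refine Submodule.smul_mem _ _ (hmem _ ?_)
    have e : ρ σ * (ρ τ₀ - 1) = (ρ (σ * τ₀ * σ⁻¹) - 1) * ρ σ := by
      rw [mul_sub, sub_mul, ← map_mul, ← map_mul, inv_mul_cancel_right, mul_one, one_mul]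
    rw [hb0]
    show (P * (ρ σ * (ρ τ₀ - 1))) (b a) = 0
    rw [e, ← mul_assoc, hid _ (hnorm σ hσ τ₀ hτ₀), zero_mul, LinearMap.zero_apply]
  · exact LinearMap.congr_fun (hid τ hτ) v

/-- A residually ordinary line gives the identity on inertia modulo the maximal ideal. -/
theorem residual_mul_eq_zero {k : Type} [Field k] {V : Type} [AddCommGroup V] [Module k V]
    (b : Module.Basis (Fin 2) k V) {f g : Module.End k V}
    (hfb : f (b 0) ∈ k ∙ b 0) (hf : ∀ v, f v - v ∈ k ∙ b 0) (hg : ∀ v, g v - v ∈ k ∙ b 0)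
    (β : Module.Basis (Fin 2) k V) :
    (LinearMap.toMatrix β β f - (LinearMap.toMatrix β β f).det • 1) *
      (LinearMap.toMatrix β β g - 1) = 0 := by
  suffices h : (f - LinearMap.det f • 1) * (g - 1) = 0 by
    have h' := congrArg (LinearMap.toMatrix β β) h
    rwa [LinearMap.toMatrix_mul, map_sub, map_sub, map_smul, map_zero, LinearMap.toMatrix_one,
      ← LinearMap.det_toMatrix β] at h'
  obtain ⟨r, hr⟩ := Submodule.mem_span_singleton.mp hfb
  obtain ⟨s, hs⟩ := Submodule.mem_span_singleton.mp (hf (b 1))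
  have hdet : LinearMap.det f = r := by
    rw [← LinearMap.det_toMatrix b, Matrix.det_fin_two]
    have e0 : b.repr (f (b 0)) = Finsupp.single 0 r := by
      rw [← hr, map_smul, Module.Basis.repr_self, Finsupp.smul_single, smul_eq_mul, mul_one]
    have e1 : b.repr (f (b 1)) = Finsupp.single 0 s + Finsupp.single 1 1 := by
      rw [← sub_add_cancel (f (b 1)) (b 1), ← hs, map_add, map_smul, Module.Basis.repr_self,
        Module.Basis.repr_self, Finsupp.smul_single, smul_eq_mul, mul_one]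
    simp [LinearMap.toMatrix_apply, e0, e1]
  refine LinearMap.ext fun v => ?_
  obtain ⟨t, ht⟩ := Submodule.mem_span_singleton.mp (hg v)
  show (f - LinearMap.det f • 1) (g v - v) = 0
  rw [← ht, map_smul, LinearMap.sub_apply, LinearMap.smul_apply, Module.End.one_apply, hdet, hr,
    sub_self, smul_zero]

variable {p N : ℕ} [NeZero N] {S : Finset ℕ}
  {𝒪 : Type} [CommRing 𝒪] [IsDomain 𝒪] [IsDiscreteValuationRing 𝒪]
  [IsAdicComplete (maximalIdeal 𝒪) 𝒪]
  {θ : CuspForm.heckeAlgebra N 2 (↑S : Set ℕ) →+* ResidueField 𝒪}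
  {T : Type} [CommRing T] [IsLocalRing T] [IsNoetherianRing T]
  [IsAdicComplete (maximalIdeal T) T] [Algebra 𝒪 T] [IsLocalHom (algebraMap 𝒪 T)]
  [Module.Finite 𝒪 T] [Module.Free 𝒪 T]

/-- **Statement S33.** -/
theorem isOrdinaryAt_of_residual [Finite (ResidueField 𝒪)] [CharZero 𝒪] (hp : p.Prime)
    (hp2 : p ≠ 2) (hp𝒪 : (p : 𝒪) ∈ maximalIdeal 𝒪) (hpN : p ∣ N) (hp2N : ¬ p ^ 2 ∣ N)
    (hNS : ∀ q : ℕ, q.Prime → q ∣ N → q ∈ S)
    (H : CuspForm.HeckeGaloisRepDatum N (↑S : Set ℕ) 𝒪 θ T)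
    (hres : (GaloisRepAdic.ofResidualGaloisRep H.ρ.residual).IsOrdinaryAt p) :
    H.ρ.IsOrdinaryAt p := by
  classical
  have : Fact p.Prime := ⟨hp⟩
  have hpT : (p : T) ∈ maximalIdeal T := by
    rw [← map_natCast (algebraMap 𝒪 T)]
    exact map_nonunit (algebraMap 𝒪 T) _ hp𝒪
  let b : Module.Basis (Fin 2) T H.ρ.V := Module.finBasisOfFinrankEq T H.ρ.V H.ρ.finrank_eq
  set M := matRep H.ρ b
  have hfrob : ∀ (l : ℕ) (hl : l.Prime) (hlN : ¬ l ∣ N) (hlS : l ∉ (↑S : Set ℕ)),
      ∀ P : ValuationSubring Qbar, P.LiesOverPrime l → ∀ σ, P.IsFrobeniusAt σ l →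
        (M σ).trace = H.π (CuspForm.heckeAlgebra.T hl hlN hlS) ∧ (M σ).det = (l : T) := by
    intro l hl hlN hlS P hP σ hσ
    have h := H.charpoly_frob l hl hlN hlS P hP σ hσ
    rw [← LinearMap.charpoly_toMatrix (H.ρ.ρ σ) b, ← matRep_apply,
      Matrix.charpoly_fin_two] at h
    have h0 := congrArg (fun P : T[X] => P.coeff 0) h
    have h1 := congrArg (fun P : T[X] => P.coeff 1) h
    simp [coeff_X_pow, coeff_C] at h0 h1
    exact ⟨h1, h0⟩
  have hdet : ∀ σ, (M σ).det = cycChar hpT σ := by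
    obtain ⟨A, c, L⟩ := exists_attachedTrace_link (jacobianInputs N hp) frobeniusDivisions
      S.finite_toSet (maximalIdeal T) hpT H.π
    have h2 : ∀ a : T, 2 * a = 0 → a = 0 := fun a ha => by
      refine smul_right_injective T (two_ne_zero : (2 : 𝒪) ≠ 0) ?_
      simpa [Algebra.smul_def, map_ofNat] using ha
    have htr : ∀ g, (M g).trace = A.f g := trace_eq_attached frobeniusDivisions A M
      (matCont_matRep H.ρ b) fun l hl hlN hlS _ P hP σ hσ => hfrob l hl hlN hlS P hP σ hσ
    exact fun σ => (SemistableHecke.det_eq_of_trace_eq h2 A M htr σ).trans (L.det_eq σ)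
  set A₀ := padicPlace p
  have hA₀ : A₀.LiesOverPrime p := padicPlace_liesOverPrime p
  obtain ⟨τ₀, hτ₀, hτ₀1⟩ := TateLocal.exists_inertia_cyc hp2 hA₀
  have hτ₀d := (Density.mem_inertiaSubgroupIn_iff.mp hτ₀).1
  let β : Module.Basis (Fin 2) (ResidueField T) H.ρ.residual.V :=
    Algebra.TensorProduct.basis (ResidueField T) b
  have hβ : ∀ σ, LinearMap.toMatrix β β (H.ρ.residual.ρ σ) = mapRep (residue T) M σ := fun σ =>
    DFunLike.congr_fun (resMatRep_residual H.ρ b) σ
  have hresid : ∀ τ ∈ A₀.inertiaSubgroupIn ℚ,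
      (mapRep (residue T) M τ₀ - residue T (M τ₀).det • 1) * (mapRep (residue T) M τ - 1) = 0 := by
    intro τ hτ
    obtain ⟨L, ⟨bb, rfl⟩, hst, htriv⟩ := hres A₀ hA₀
    have h := residual_mul_eq_zero (f := H.ρ.residual.ρ τ₀) (g := H.ρ.residual.ρ τ) bb
      (hst τ₀ hτ₀d _ (Submodule.mem_span_singleton_self _)) (htriv τ₀ hτ₀) (htriv τ hτ) β
    have e : (mapRep (residue T) M τ₀).det = residue T (M τ₀).det := by
      rw [mapRep_eq_map, ← RingHom.mapMatrix_apply, RingHom.map_det]
    have h' : (LinearMap.toMatrix β β (H.ρ.residual.ρ τ₀) -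
        (LinearMap.toMatrix β β (H.ρ.residual.ρ τ₀)).det • 1) *
        (LinearMap.toMatrix β β (H.ρ.residual.ρ τ) - 1) = 0 := h
    rw [hβ, hβ, e] at h'
    exact h'
  have hirr : AbsIrreducibleOn (mapRep (residue T) M) ⊤ := by
    rw [← resMatRep_residual]
    exact LocalThree.absIrreducibleOn_of_span (span_resMatRep_eq_top _ H.residual_absIrr _)
  have : IsReduced T := isReduced_of_adjoin_hecke hNS H.π H.adjoin_range_π
  have hidM : ∀ τ ∈ A₀.inertiaSubgroupIn ℚ, (M τ₀ - (M τ₀).det • 1) * (M τ - 1) = 0 := by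
    intro τ hτ
    ext i l
    exact IsReduced.eq_zero _ (isNilpotent_of_forall_point 𝒪 T fun f =>
      congrFun (congrFun (inertia_mul_eq_zero_at_point hp2 hpT hpN hp2N hNS H.π M
        (matCont_matRep H.ρ b) hdet (fun l hl hlN hlS P hP σ hσ =>
          (hfrob l hl hlN hlS P hP σ hσ).1) hirr hτ₀ hτ₀1 hresid hτ f) i) l)
  intro P hP
  obtain ⟨γ, rfl⟩ := Density.exists_smul_eq_of_liesOverPrime hp hA₀ hP
  have hχ : residue T (M τ₀).det ≠ 1 := by
    rw [hdet, cycChar_apply]; exact residue_padicTo_ne_one hpT hτ₀1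
  have hdetγ : LinearMap.det (H.ρ.ρ (γ * τ₀ * γ⁻¹)) = (M τ₀).det := by
    rw [← LinearMap.det_toMatrix b, ← matRep_apply, map_mul, map_mul, Matrix.det_mul,
      Matrix.det_mul, mul_right_comm, ← Matrix.det_mul, ← map_mul, mul_inv_cancel, map_one,
      Matrix.det_one, one_mul]
  refine exists_stable_line b H.ρ.ρ (τ₀ := γ * τ₀ * γ⁻¹)
    (Density.mem_inertiaSubgroupIn_smul hτ₀ γ) (fun σ hσ τ hτ => ?_) (by rw [hdetγ]; exact hχ)
    fun τ hτ => ?_
  · have := Density.mem_inertiaSubgroupIn_smul hτ σ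
    rwa [MulAction.mem_stabilizer_iff.mp hσ] at this
  · have hτ' : γ⁻¹ * τ * γ ∈ A₀.inertiaSubgroupIn ℚ := by
      have := Density.mem_inertiaSubgroupIn_smul hτ γ⁻¹
      rwa [inv_smul_smul, inv_inv] at this
    apply (LinearMap.toMatrix b b).injective
    rw [LinearMap.toMatrix_mul, map_sub, map_sub, map_smul, map_zero, LinearMap.toMatrix_one,
      hdetγ, ← matRep_apply, ← matRep_apply]
    show (M (γ * τ₀ * γ⁻¹) - (M τ₀).det • 1) * (M τ - 1) = 0
    have e1 : M (γ * τ₀ * γ⁻¹) - (M τ₀).det • 1 = M γ * (M τ₀ - (M τ₀).det • 1) * M γ⁻¹ := by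
      rw [mul_sub, sub_mul, mul_smul_comm, smul_mul_assoc, mul_one, ← map_mul, ← map_mul,
        ← map_mul, mul_inv_cancel, map_one]
    have e2 : M γ⁻¹ * (M τ - 1) = (M (γ⁻¹ * τ * γ) - 1) * M γ⁻¹ := by
      rw [mul_sub, sub_mul, mul_one, one_mul, ← map_mul, ← map_mul, mul_inv_cancel_right]
    rw [e1, mul_assoc, e2, ← mul_assoc, mul_assoc (M γ), hidM _ hτ', mul_zero, zero_mul]

end FLTAgent.SemistableOrdinary
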