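import Fermat.Agent.ModularityLifting.Setup
import Fermat.Agent.ModularityLifting.EigenvalueP.Local
import Fermat.Agent.TWPrimes.Flat.Inertia
import Mathlib.LinearAlgebra.Dual.Lemmas

/-!
# Flat representations with ordinary reduction

If a flat representation over a complete discrete valuation ring is ordinary modulo the maximal
ideal, then the images of `ρ τ - 1`, for `τ` in inertia at `p`, span a single line, on which inertia
acts through the determinant.
-/

set_option autoImplicit false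

noncomputable section

open IsLocalRing Matrix

namespace FLTAgent.SemistableOrdinary

open FLTAgent.DefRing FLTAgent.ModularityLifting FLTAgent.TWPrimes FLTAgent.LocalDuality
  FLTAgent.FlatBound
open FLTAgent.Density (GalQ Qbar)

variable {p : ℕ} [Fact p.Prime] {C : Type} [CommRing C] [IsDomain C] [IsDiscreteValuationRing C]
  [Finite (ResidueField C)]

omit [Finite (ResidueField C)] [IsDomain C] [IsDiscreteValuationRing C] in
/-- Functions of a model are congruent to their value at the origin on the connected part. -/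
theorem sub_mem_nonunits_of_connected {M : Type} [AddCommGroup M] [Fintype M]
    {act : GalQ →* AddMonoid.End M}
    {H₀ : Subalgebra (GaloisRep.ratLocalizedAt p) (M → Qbar)}
    (h₀ : FiniteFlat.IsFlatModel p act H₀) {x : M} (hx : x ∈ (padicFun_spec h₀).1.connectedPart)
    {f : M → Qbar} (hf : f ∈ H₀) : f x - f 0 ∈ (padicPlace p).nonunits := by
  rw [mem_padicPlace_nonunits_iff, map_sub]
  exact hx ((padicEmbedding p).toRingHom.compLeft M f) ⟨f, hf, rfl⟩

omit [Finite (ResidueField C)] in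
/-- The image of `ρ τ - 1` modulo any ideal consists of points congruent to the origin. -/
theorem sub_mem_connected {n : ℕ} {ρ : MatRep C}
    {H₀ : Subalgebra (GaloisRep.ratLocalizedAt p) ((Fin 2 → C ⧸ maximalIdeal C ^ n) → Qbar)}
    [Finite (C ⧸ maximalIdeal C ^ n)]
    (h₀ : FiniteFlat.IsFlatModel p (redAct ρ (maximalIdeal C ^ n)) H₀) {τ : GalQ}
    (hτ : τ ∈ (padicPlace p).inertiaSubgroupIn ℚ) (y : Fin 2 → C) :
    haveI := Fintype.ofFinite (Fin 2 → C ⧸ maximalIdeal C ^ n)
    Ideal.Quotient.mk (maximalIdeal C ^ n) ∘ ((ρ τ - 1) *ᵥ y) ∈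
      (padicFun_spec h₀).1.connectedPart := by
  have := Fintype.ofFinite (Fin 2 → C ⧸ maximalIdeal C ^ n)
  obtain ⟨-, ⟨E, hE, hval⟩, -⟩ := padicFun_spec h₀
  have := hE
  obtain ⟨τ', hτ'⟩ := exists_toGlobal p (Density.mem_inertiaSubgroupIn_iff.mp hτ).1
  have hin : τ' ∈ inertiaAt E :=
    isLocalInertia_le E ((isLocalInertia_iff p τ').mpr (by rw [hτ']; exact hτ))
  have h := (padicFun_spec h₀).1.sub_mem_connectedPart hval hin
    (Ideal.Quotient.mk (maximalIdeal C ^ n) ∘ y)
  have e : Ideal.Quotient.mk (maximalIdeal C ^ n) ∘ ((ρ τ - 1) *ᵥ y) =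
      redAct ρ (maximalIdeal C ^ n) (toGlobal p τ') (Ideal.Quotient.mk (maximalIdeal C ^ n) ∘ y) -
        Ideal.Quotient.mk (maximalIdeal C ^ n) ∘ y := by
    rw [hτ', Matrix.sub_mulVec, Matrix.one_mulVec]
    funext i
    show Ideal.Quotient.mk _ ((ρ τ *ᵥ y) i - y i) = _
    rw [map_sub, RingHom.map_mulVec]
    rfl
  rw [e]
  exact h

/-- **Collinearity.** The images of `ρ τ - 1` and `ρ τ' - 1` lie on one line. -/
theorem cross_eq_zero_of_flatAt (hp2 : p ≠ 2) (hpC : (p : C) ∈ maximalIdeal C) {ρ : MatRep C}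
    (hflat : FlatAt ρ p) {τ₀ : GalQ}
    (hχ : residue C (ρ τ₀).det ≠ 1)
    (hres : ∀ τ ∈ (padicPlace p).inertiaSubgroupIn ℚ,
      ((mapRep (residue C) ρ τ₀) - residue C (ρ τ₀).det • 1) * (mapRep (residue C) ρ τ - 1) = 0)
    {τ τ' : GalQ} (hτ : τ ∈ (padicPlace p).inertiaSubgroupIn ℚ)
    (hτ' : τ' ∈ (padicPlace p).inertiaSubgroupIn ℚ) (y y' : Fin 2 → C) :
    ((ρ τ' - 1) *ᵥ y') 0 * ((ρ τ - 1) *ᵥ y) 1 = ((ρ τ' - 1) *ᵥ y') 1 * ((ρ τ - 1) *ᵥ y) 0 := by
  classical
  have hp := (Fact.out : p.Prime)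
  set v := (ρ τ' - 1) *ᵥ y' with hv
  set w := (ρ τ - 1) *ᵥ y with hw
  refine sub_eq_zero.mp ?_
  by_contra hD
  obtain ⟨ϖ, hϖ⟩ := IsDiscreteValuationRing.exists_irreducible C
  obtain ⟨j, u, hju⟩ := IsDiscreteValuationRing.eq_unit_mul_pow_irreducible hD hϖ
  set I := maximalIdeal C ^ (j + 1) with hI
  have : Finite (C ⧸ maximalIdeal C) := ‹Finite (ResidueField C)›
  have hfin : Finite (C ⧸ maximalIdeal C ^ (j + 1)) :=
    Ideal.finite_quotient_pow (maximalIdeal C).fg_of_isNoetherianRing (j + 1)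
  obtain ⟨H₀, h₀⟩ := hflat I hfin
  have := Fintype.ofFinite (Fin 2 → C ⧸ maximalIdeal C ^ (j + 1))
  set q := Ideal.Quotient.mk I with hq
  -- multiplication by `ϖ ^ j` from the residue field
  have hmax : maximalIdeal C = Ideal.span {ϖ} :=
    (IsDiscreteValuationRing.irreducible_iff_uniformizer ϖ).mp hϖ
  have hle : maximalIdeal C ≤ Submodule.comap (LinearMap.mulLeft C (ϖ ^ j)) I := fun c hc => by
    show ϖ ^ j * c ∈ maximalIdeal C ^ (j + 1)
    rw [pow_succ]
    exact Ideal.mul_mem_mul (Ideal.pow_mem_pow ((mem_maximalIdeal ϖ).mpr hϖ.not_isUnit) j) hc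
  let μ : ResidueField C →+ C ⧸ I :=
    ((maximalIdeal C).mapQ I (LinearMap.mulLeft C (ϖ ^ j)) hle).toAddMonoidHom
  have hμ : ∀ c, μ (residue C c) = q (ϖ ^ j * c) := fun c => rfl
  have hμinj : Function.Injective μ := by
    refine (injective_iff_map_eq_zero μ).mpr fun a => ?_
    obtain ⟨c, rfl⟩ := residue_surjective a
    intro h
    rw [hμ, hq, Ideal.Quotient.eq_zero_iff_mem, hI, hmax, Ideal.span_singleton_pow,
      Ideal.mem_span_singleton, pow_succ, mul_dvd_mul_iff_left (pow_ne_zero _ hϖ.ne_zero)] at h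
    rw [residue_eq_zero_iff, hmax, Ideal.mem_span_singleton]
    exact h
  let ι : (Fin 2 → ResidueField C) →+ (Fin 2 → C ⧸ I) :=
    AddMonoidHom.mk' (fun x i => μ (x i)) fun a b => funext fun i => map_add μ _ _
  let ρb : MatRep (ResidueField C) := mapRep (residue C) ρ
  let act : GalQ →* AddMonoid.End (Fin 2 → ResidueField C) :=
    { toFun := fun σ => (Matrix.toLin' (ρb σ)).toAddMonoidHom
      map_one' := AddMonoidHom.ext fun x => by
        rw [map_one, Matrix.toLin'_one]; rfl
      map_mul' := fun σ t => AddMonoidHom.ext fun x => by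
        rw [map_mul, Matrix.toLin'_mul]; rfl }
  have hact : ∀ σ x, act σ x = ρb σ *ᵥ x := fun σ x => rfl
  have heq : ∀ σ x, ι (act σ x) = redAct ρ I σ (ι x) := fun σ x => by
    obtain ⟨c, rfl⟩ : ∃ c : Fin 2 → C, residue C ∘ c = x :=
      ⟨fun i => (residue_surjective (x i)).choose,
        funext fun i => (residue_surjective (x i)).choose_spec⟩
    funext i
    show μ ((ρb σ *ᵥ (residue C ∘ c)) i) = ((ρ σ).map q *ᵥ fun l => μ (residue C (c l))) i
    have e : (fun l => μ (residue C (c l))) = q ∘ (ϖ ^ j • c) := funext fun l => hμ (c l)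
    rw [e, show (ρb σ *ᵥ (residue C ∘ c)) i = residue C ((ρ σ *ᵥ c) i) from
      (RingHom.map_mulVec (residue C) (ρ σ) c i).symm, hμ,
      ← RingHom.map_mulVec q (ρ σ) (ϖ ^ j • c) i, Matrix.mulVec_smul]
    rfl
  have h₀' := FlatBound.isFlatModel_map_pullback (actN := act) h₀ ι
    (fun a b h => funext fun i => hμinj (congrFun h i)) heq
  obtain ⟨Φ, hΦ⟩ :=
    Density.exists_isFrobeniusAt (padicPlace p) hp (padicPlace_liesOverPrime p)
  have : Finite (AddMonoid.End (Fin 2 → ResidueField C)) :=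
    Finite.of_injective _ DFunLike.coe_injective
  set d := Nat.card (AddMonoid.End (Fin 2 → ResidueField C))ˣ
  have hd1 : act (Φ ^ d) = 1 := by
    rw [map_pow, ← MonoidHom.coe_toHomUnits act Φ, ← Units.val_pow_eq_pow_val, pow_card_eq_one',
      Units.val_one]
  have : CharP (ResidueField C) p := (CharP.charP_iff_prime_eq_zero hp).mpr (by
    rw [← map_natCast (residue C), residue_eq_zero_iff]; exact hpC)
  let : Module (ZMod p) (Fin 2 → ResidueField C) := AddCommGroup.zmodModule fun x => funext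
    fun i => by rw [Pi.smul_apply, nsmul_eq_mul, CharP.cast_eq_zero, zero_mul, Pi.zero_apply]
  set Z := ρb τ₀ - residue C (ρ τ₀).det • 1 with hZ
  -- residual points congruent to the origin lie on the residual line
  have hline : ∀ x, ι x ∈ (padicFun_spec h₀).1.connectedPart → Z *ᵥ x = 0 := fun x hx => by
    rw [← Module.forall_dual_apply_eq_zero_iff (ZMod p)]
    intro ψ
    let φ : (Fin 2 → ResidueField C) →+ ZMod p :=
      ψ.toAddMonoidHom.comp (Matrix.toLin' Z).toAddMonoidHom
    refine FlatBound.functional_eq_zero_of_unramified hp2 h₀' φ (fun s hs z => ?_)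
      (Nat.card_pos : 0 < d) hΦ (fun z => by rw [hd1]; rfl) (x := x) ?_
    · show ψ (Z *ᵥ (ρb s *ᵥ z)) = ψ (Z *ᵥ z)
      have hres := hres s hs
      rw [mul_sub, mul_one, sub_eq_zero] at hres
      exact congrArg ψ (by rw [Matrix.mulVec_mulVec, hres])
    · rintro _ ⟨f, hf, rfl⟩
      show f (ι x) - f (ι 0) ∈ (padicPlace p).nonunits
      rw [map_zero]
      exact sub_mem_nonunits_of_connected h₀ hx hf
  have hmem : ∀ a b : C, q ∘ (a • w - b • v) ∈ (padicFun_spec h₀).1.connectedPart := fun a b => by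
    have e : a • w - b • v = (ρ τ - 1) *ᵥ (a • y) - (ρ τ' - 1) *ᵥ (b • y') := by
      rw [Matrix.mulVec_smul, Matrix.mulVec_smul]
    have e2 : ∀ A B : Fin 2 → C, q ∘ (A - B) = q ∘ A - q ∘ B := fun A B =>
      funext fun i => map_sub q _ _
    rw [e, e2]
    exact sub_mem (sub_mem_connected h₀ hτ (a • y)) (sub_mem_connected h₀ hτ' (b • y'))
  have hu : residue C (u : C) ≠ 0 := (u.isUnit.map (residue C)).ne_zero
  have hj : ∀ c : C, μ (residue C c) = q (ϖ ^ j * c) := hμ
  have h0 : Z *ᵥ ![0, residue C (u : C)] = 0 := hline _ (by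
    convert hmem (v 0) (w 0) using 1
    funext i
    fin_cases i
    · show μ 0 = q (v 0 * w 0 - w 0 * v 0)
      rw [map_zero, mul_comm (w 0), sub_self, map_zero]
    · show μ (residue C (u : C)) = q (v 0 * w 1 - w 0 * v 1)
      rw [hj, mul_comm (w 0), hju, mul_comm (u : C)])
  have h1 : Z *ᵥ ![residue C (u : C), 0] = 0 := hline _ (by
    convert hmem (-(v 1)) (-(w 1)) using 1
    funext i
    fin_cases i
    · show μ (residue C (u : C)) = q (-(v 1) * w 0 - -(w 1) * v 0)
      rw [hj, mul_comm (w 1 |> Neg.neg), show -(v 1) * w 0 - v 0 * -(w 1) =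
        v 0 * w 1 - v 1 * w 0 by ring, hju, mul_comm (u : C)]
    · show μ 0 = q (-(v 1) * w 1 - -(w 1) * v 1)
      rw [map_zero, show -(v 1) * w 1 - -(w 1) * v 1 = 0 by ring, map_zero])
  have hZ0 : Z = 0 := by
    ext i l
    fin_cases l
    · simpa [Matrix.mulVec, dotProduct, Fin.sum_univ_two, hu] using congrFun h1 i
    · simpa [Matrix.mulVec, dotProduct, Fin.sum_univ_two, hu] using congrFun h0 i
  have hdet : (ρb τ₀).det = residue C (ρ τ₀).det := by
    rw [RingHom.map_det]; rfl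
  rw [hZ, sub_eq_zero] at hZ0
  rw [hZ0, Matrix.det_smul, Matrix.det_one, mul_one, Fintype.card_fin] at hdet
  have hne : residue C (ρ τ₀).det ≠ 0 := by
    rw [RingHom.map_det]
    exact ((Group.isUnit τ₀).map ρb |>.map Matrix.detMonoidHom).ne_zero
  exact hχ (mul_right_cancel₀ hne (by rw [one_mul, ← pow_two]; exact hdet))

/-- **Flat with ordinary reduction is ordinary.** -/
theorem inertia_mul_eq_zero_of_flatAt (hp2 : p ≠ 2) (hpC : (p : C) ∈ maximalIdeal C)
    {ρ : MatRep C} (hflat : FlatAt ρ p) {τ₀ : GalQ}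
    (hτ₀ : τ₀ ∈ (padicPlace p).inertiaSubgroupIn ℚ) (hχ : residue C (ρ τ₀).det ≠ 1)
    (hres : ∀ τ ∈ (padicPlace p).inertiaSubgroupIn ℚ,
      ((mapRep (residue C) ρ τ₀) - residue C (ρ τ₀).det • 1) * (mapRep (residue C) ρ τ - 1) = 0)
    {τ : GalQ} (hτ : τ ∈ (padicPlace p).inertiaSubgroupIn ℚ) :
    (ρ τ₀ - (ρ τ₀).det • 1) * (ρ τ - 1) = 0 := by
  set A := ρ τ₀
  have key : ∀ {s : GalQ}, s ∈ (padicPlace p).inertiaSubgroupIn ℚ → ∀ a m : Fin 2,
      (A - 1) 0 a * (ρ s - 1) 1 m = (A - 1) 1 a * (ρ s - 1) 0 m := fun {s} hs a m => by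
    have := cross_eq_zero_of_flatAt hp2 hpC hflat hχ hres hs hτ₀ (Pi.single m 1) (Pi.single a 1)
    simpa only [Matrix.mulVec_single_one, Matrix.col_apply] using this
  have htr : A.trace = 1 + A.det := by
    have := key hτ₀ 0 1
    simp only [Matrix.sub_apply, Matrix.one_apply_eq, Matrix.one_apply_ne,
      show ((0 : Fin 2) = 1) = False by simp, show ((1 : Fin 2) = 0) = False by simp,
      ne_eq, not_false_eq_true, sub_zero, A] at this
    rw [Matrix.trace_fin_two, Matrix.det_fin_two]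
    linear_combination -this
  have hCH : (A - A.det • 1) * (A - 1) = 0 := by
    rw [Matrix.trace_fin_two, Matrix.det_fin_two] at htr
    rw [Matrix.det_fin_two]
    ext i l
    fin_cases i <;> fin_cases l <;> simp [Matrix.mul_apply, Fin.sum_univ_two]
    · linear_combination (A 0 0) * htr
    · linear_combination (A 0 1) * htr
    · linear_combination (A 1 0) * htr
    · linear_combination (A 1 1) * htr
  obtain ⟨i, a, hne⟩ : ∃ i a, (A - 1) i a ≠ 0 := by
    by_contra! h
    refine hχ ?_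
    rw [show A = 1 from sub_eq_zero.mp (Matrix.ext h), Matrix.det_one, map_one]
  ext l m
  have hcol : (A - A.det • 1) l 0 * (A - 1) 0 a + (A - A.det • 1) l 1 * (A - 1) 1 a = 0 := by
    have := congrFun (congrFun hCH l) a
    rwa [Matrix.mul_apply, Fin.sum_univ_two] at this
  refine (mul_eq_zero.mp (?_ : (A - 1) i a * _ = 0)).resolve_left hne
  rw [Matrix.mul_apply, Fin.sum_univ_two]
  have := key hτ a m
  fin_cases i
  · simp only [Fin.zero_eta]
    linear_combination (ρ τ - 1) 0 m * hcol + (A - A.det • 1) l 1 * this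
  · simp only [Fin.mk_one]
    linear_combination (ρ τ - 1) 1 m * hcol - (A - A.det • 1) l 0 * this

end FLTAgent.SemistableOrdinary
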