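import Fermat.Agent.SemistableOrdinary.Flat
import Fermat.Agent.ModularityLifting.Points.Coeff
import Fermat.Agent.ModularityLifting.PointsDatum.Reduced
import Fermat.Agent.ModularityLifting.FlatOfTrace
import Fermat.Agent.SemistableHecke.LocalNewform
import Fermat.Agent.LevelLowering.Site.Newform
import Fermat.Agent.Newforms.Occurrence
import Fermat.Agent.MFIntegral.IntegralStructure
import Mathlib.FieldTheory.AlgebraicClosure

/-!
# Inertia at `p ∥ N` at the points of the Hecke algebra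

Every point lies on a newform of a level dividing `N`: strictly ordinary if `p` divides that level,
flat otherwise. With an ordinary residual representation this gives the same identity on inertia.
-/

set_option autoImplicit false

noncomputable section

open IsLocalRing Matrix CongruenceSubgroup Polynomial

namespace FLTAgent.SemistableOrdinary

open FLTAgent.DefRing FLTAgent.ModularityLifting FLTAgent.GaloisAttach FLTAgent.HeckePoints
open FLTAgent.TWPrimes FLTAgent.LocalDuality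
open FLTAgent.Density (GalQ Qbar)

/-- An element of `ℤ_p` which is not `1` modulo `p` is not `1` in a residue field of
characteristic `p`. -/
theorem residue_padicTo_ne_one {p : ℕ} [Fact p.Prime] {A : Type} [CommRing A] [IsLocalRing A]
    [IsAdicComplete (maximalIdeal A) A] (hpA : (p : A) ∈ maximalIdeal A) {z : ℤ_[p]}
    (hz : PadicInt.toZMod z ≠ 1) : residue A (padicTo hpA z) ≠ 1 := by
  have hu : IsUnit (z - 1) := by
    by_contra hu
    refine hz (sub_eq_zero.mp ?_)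
    rw [← map_one (PadicInt.toZMod (p := p)), ← map_sub, ← RingHom.mem_ker, PadicInt.ker_toZMod]
    exact (mem_maximalIdeal (z - 1)).mpr hu
  intro h
  have h1 : residue A (padicTo hpA (z - 1)) = 0 := by
    rw [map_sub, map_sub, map_one, map_one, h, sub_self]
  exact ((hu.map (padicTo hpA)).map (residue A)).ne_zero h1

/-- Strictly ordinary gives the identity on inertia. -/
theorem inertia_mul_eq_zero_of_strictAt {p : ℕ} [Fact p.Prime] {C : Type} [CommRing C]
    {ρ : MatRep C} {ε : C} (h : StrictAt ρ p ε) {τ₀ τ : GalQ}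
    (hτ₀ : τ₀ ∈ (padicPlace p).inertiaSubgroupIn ℚ) (hτ : τ ∈ (padicPlace p).inertiaSubgroupIn ℚ) :
    (ρ τ₀ - (ρ τ₀).det • 1) * (ρ τ - 1) = 0 := by
  obtain ⟨g, hg⟩ := h (padicPlace p) (padicPlace_liesOverPrime p)
  obtain ⟨h10, h11, -⟩ := hg τ₀ (Density.mem_inertiaSubgroupIn_iff.mp hτ₀).1
  obtain ⟨k10, k11, -⟩ := hg τ (Density.mem_inertiaSubgroupIn_iff.mp hτ).1
  set N : GalQ → Matrix (Fin 2) (Fin 2) C :=
    fun σ => (g : Matrix (Fin 2) (Fin 2) C) * ρ σ * (g⁻¹ : GL (Fin 2) C)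
  have h00 : (ρ τ₀).det = N τ₀ 0 0 := by
    rw [← Matrix.det_units_conj g (ρ τ₀), Matrix.det_fin_two, h10, h11 hτ₀]
    simp [N]
  refine (Units.mul_right_eq_zero g).mp ((Units.mul_left_eq_zero g⁻¹).mp ?_)
  have e : (g : Matrix (Fin 2) (Fin 2) C) * ((ρ τ₀ - (ρ τ₀).det • 1) * (ρ τ - 1)) *
      (g⁻¹ : GL (Fin 2) C) = (N τ₀ - (ρ τ₀).det • 1) * (N τ - 1) := by
    simp only [N, mul_sub, sub_mul, mul_smul_comm, smul_mul_assoc, mul_one, one_mul, mul_assoc,
      Units.inv_mul_cancel_left, Units.mul_inv]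
  rw [e, h00]
  have hN10 : N τ₀ 1 0 = 0 := h10
  have hN11 : N τ₀ 1 1 = 1 := h11 hτ₀
  have hM10 : N τ 1 0 = 0 := k10
  have hM11 : N τ 1 1 = 1 := k11 hτ
  ext i l
  fin_cases i <;> fin_cases l <;>
    simp [Matrix.mul_apply, Fin.sum_univ_two, hN10, hN11, hM10, hM11]

variable {p : ℕ} [Fact p.Prime] {N : ℕ} [NeZero N] {S : Finset ℕ}
  {𝒪 : Type} [CommRing 𝒪] [IsDomain 𝒪] [IsDiscreteValuationRing 𝒪]
  [IsAdicComplete (maximalIdeal 𝒪) 𝒪] [Finite (ResidueField 𝒪)] [CharZero 𝒪]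
  {T : Type} [CommRing T] [IsLocalRing T] [IsAdicComplete (maximalIdeal T) T] [Algebra 𝒪 T]
  [Module.Finite 𝒪 T]

/-- **The identity at a point.** -/
theorem inertia_mul_eq_zero_at_point (hp2 : p ≠ 2) (hpT : (p : T) ∈ maximalIdeal T)
    (hpN : p ∣ N) (hp2N : ¬ p ^ 2 ∣ N) (hNS : ∀ q : ℕ, q.Prime → q ∣ N → q ∈ S)
    (π : CuspForm.heckeAlgebra N 2 (S : Set ℕ) →+* T) (M : MatRep T) (hM : MatCont M)
    (hdet : ∀ σ, (M σ).det = cycChar hpT σ)
    (hfrob : ∀ (l : ℕ) (hl : l.Prime) (hlN : ¬ l ∣ N) (hlS : l ∉ (S : Set ℕ)),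
      ∀ P : ValuationSubring Qbar, P.LiesOverPrime l → ∀ φ, P.IsFrobeniusAt φ l →
        (M φ).trace = π (CuspForm.heckeAlgebra.T hl hlN hlS))
    (hirr : AbsIrreducibleOn (mapRep (residue T) M) ⊤) {τ₀ : GalQ}
    (hτ₀ : τ₀ ∈ (padicPlace p).inertiaSubgroupIn ℚ) (hχ : PadicInt.toZMod (cyc p τ₀) ≠ 1)
    (hres : ∀ τ ∈ (padicPlace p).inertiaSubgroupIn ℚ,
      (mapRep (residue T) M τ₀ - residue T (M τ₀).det • 1) * (mapRep (residue T) M τ - 1) = 0)
    {τ : GalQ} (hτ : τ ∈ (padicPlace p).inertiaSubgroupIn ℚ) (f : T →ₐ[𝒪] Kbar 𝒪) :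
    ((M τ₀ - (M τ₀).det • 1) * (M τ - 1)).map f = 0 := by
  classical
  have hp : p.Prime := Fact.out
  obtain ⟨s, hs⟩ := Module.Finite.fg_top (R := 𝒪) (M := T)
  obtain ⟨C, iC, iD, iV, iA, iF, iZ, iAlg, iFin, iFree, iL, j, hj, -, hsub⟩ :=
    exists_coeff 𝒪 (f '' (s : Set T)) (s.finite_toSet.image f) fun z hz => by
      obtain ⟨x, -, rfl⟩ := hz
      exact (IsIntegral.of_finite 𝒪 x).map f
  have hrange : ∀ x, f x ∈ j.range := fun x => by
    have hx : x ∈ Submodule.span 𝒪 (s : Set T) := hs ▸ Submodule.mem_top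
    induction hx using Submodule.span_induction with
    | mem y hy => exact hsub ⟨y, hy, rfl⟩
    | zero => rw [map_zero]; exact zero_mem _
    | add a b _ _ ha hb => rw [map_add]; exact add_mem ha hb
    | smul c a _ ha => rw [map_smul]; exact Subalgebra.smul_mem _ ha c
  let φ : T →ₐ[𝒪] C :=
    (AlgEquiv.ofInjective j hj).symm.toAlgHom.comp (f.codRestrict j.range hrange)
  have hφ : ∀ x, j (φ x) = f x := fun x =>
    congrArg Subtype.val ((AlgEquiv.ofInjective j hj).apply_symm_apply _)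
  have := PointsDatum.isLocalHom_of_finite φ
  set ψ : T →+* C := (φ : T →+* C) with hψ
  have : IsLocalHom ψ := ‹_›
  have hloc : maximalIdeal T ≤ (maximalIdeal C).comap ψ := fun x hx => map_nonunit ψ x hx
  have hpC : (p : C) ∈ maximalIdeal C := by
    rw [← map_natCast ψ]; exact hloc hpT
  set ρ : MatRep C := mapRep ψ M
  have hρdet : ∀ σ, (ρ σ).det = cycChar hpC σ := fun σ => by
    show ((M σ).map ψ).det = _
    rw [← RingHom.mapMatrix_apply, ← RingHom.map_det, hdet, map_cycChar hpT hpC ψ hloc]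
  -- reduction
  set rψ := ResidueField.map ψ
  have hred : mapRep (residue C) ρ = mapRep rψ (mapRep (residue T) M) := by
    rw [mapRep_mapRep, mapRep_mapRep]
    congr 1
  have hρirr : AbsIrreducibleOn (mapRep (residue C) ρ) ⊤ := by
    rw [hred]
    intro K _ ι v hv
    exact hirr K (ι.comp rψ) v fun σ hσ => by
      obtain ⟨c, hc⟩ := hv σ hσ
      exact ⟨c, hc⟩
  have hρres : ∀ τ ∈ (padicPlace p).inertiaSubgroupIn ℚ,
      (mapRep (residue C) ρ τ₀ - residue C (ρ τ₀).det • 1) * (mapRep (residue C) ρ τ - 1) = 0 := by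
    intro τ hτ
    have h := congrArg rψ.mapMatrix (hres τ hτ)
    rw [map_mul, map_sub, map_sub, map_zero, map_one] at h
    have e : rψ.mapMatrix (residue T (M τ₀).det • (1 : Matrix (Fin 2) (Fin 2) (ResidueField T))) =
        residue C (ρ τ₀).det • 1 := by
      rw [hρdet, ← map_cycChar hpT hpC ψ hloc, ← hdet, ← ResidueField.map_residue]
      ext i l
      simp [Matrix.one_apply, apply_ite rψ]
      rfl
    rw [e] at h
    rwa [hred]
  have hρχ : residue C (ρ τ₀).det ≠ 1 := by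
    rw [hρdet, cycChar_apply]; exact residue_padicTo_ne_one hpC hχ
  -- the newform
  let θ₀ : CuspForm.heckeAlgebra N 2 (S : Set ℕ) →+* C := ψ.comp π
  have : CharZero (Kbar 𝒪) :=
    haveI : CharZero (FractionRing 𝒪) :=
      charZero_of_injective_ringHom (IsFractionRing.injective 𝒪 (FractionRing 𝒪))
    charZero_of_injective_ringHom (algebraMap (FractionRing 𝒪) (Kbar 𝒪)).injective
  have := Eigenforms.heckeAlgebra_isIntegral (N := N) (MFIntegral.hasIntegralStructure N 2)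
    (S : Set ℕ)
  let F : IntermediateField ℚ (Kbar 𝒪) := algebraicClosure ℚ (Kbar 𝒪)
  have hmem : ∀ t, (j : C →+* Kbar 𝒪).comp θ₀ t ∈ F := fun t => by
    refine mem_algebraicClosure_iff'.mpr ?_
    obtain ⟨r, hm, hr⟩ := map_isIntegral_int ((j : C →+* Kbar 𝒪).comp θ₀)
      (Algebra.IsIntegral.isIntegral (R := ℤ) t)
    refine ⟨r.map (Int.castRingHom ℚ), hm.map _, ?_⟩
    rw [Polynomial.eval₂_map]
    exact (congrArg (fun g : ℤ →+* Kbar 𝒪 => Polynomial.eval₂ g _ r) (RingHom.ext_int _ _)).trans hr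
  have : Algebra.IsAlgebraic ℚ F := algebraicClosure.isAlgebraic ℚ (Kbar 𝒪)
  let e : F →ₐ[ℚ] ℂ := IsAlgClosed.lift
  let χ : CuspForm.heckeAlgebra N 2 (S : Set ℕ) →+* ℂ :=
    (e : F →+* ℂ).comp (((j : C →+* Kbar 𝒪).comp θ₀).codRestrict F.toSubfield hmem)
  obtain ⟨g₀, hg₀, hgχ⟩ :=
    Eigenforms.exists_eigenform_of_char (MFIntegral.hasIntegralStructure N 2) χ
  obtain ⟨L, hL0, g, hLN, hg, hgg⟩ := Newforms.exists_newform_of_eigenform hg₀
  have hgood : ∀ l, l.Prime → l ∉ S → ¬ l ∣ N := fun l hl hlS h => hlS (hNS l hl h)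
  let c : ℕ → C := fun l =>
    if h : l.Prime ∧ l ∉ S then
      θ₀ (CuspForm.heckeAlgebra.T h.1 (hgood l h.1 h.2) (fun h' => h.2 (Finset.mem_coe.mp h')))
    else 0
  have hc : ∀ l (hl : l.Prime) (hlS : l ∉ S), c l =
      θ₀ (CuspForm.heckeAlgebra.T hl (hgood l hl hlS) (fun h' => hlS (Finset.mem_coe.mp h'))) :=
    fun l hl hlS => dif_pos ⟨hl, hlS⟩
  have H : LevelLowering.OnNewform hpC S ρ g := by
    refine LevelLowering.onNewform_of_coeff (j : C →+* Kbar 𝒪) hj hg (hNS p hp hpN)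
      (fun q hq hqL => hNS q hq (hqL.trans hLN)) (hM.map ψ ‹_›) hρdet
      (F := F.toSubfield) (e : F →+* ℂ) c (fun l hl hlS => ?_) fun l hl hlS P hP σ hσ => ?_
    · have hh := hmem (CuspForm.heckeAlgebra.T hl (hgood l hl hlS) fun h' =>
        hlS (Finset.mem_coe.mp h'))
      refine ⟨(by rw [hc l hl hlS]; exact hh), ?_⟩
      rw [hgg l hl (hgood l hl hlS), ← Eigenforms.eigenChar_T hg₀ hl (hgood l hl hlS)
        (fun h' => hlS (Finset.mem_coe.mp h')), hgχ]
      exact congrArg e (Subtype.ext (congrArg j (hc l hl hlS).symm))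
    · rw [hc l hl hlS]
      show ((M σ).map ψ).trace = ψ _
      rw [← hfrob l hl (hgood l hl hlS) (fun h' => hlS (Finset.mem_coe.mp h')) P hP σ hσ]
      exact (AddMonoidHom.map_trace ψ.toAddMonoidHom (M σ)).symm
  obtain ⟨θ, hker, -, A, hA⟩ := H.exists_attached
  have key : (ρ τ₀ - (ρ τ₀).det • 1) * (ρ τ - 1) = 0 := by
    by_cases hpL : p ∣ L
    · obtain ⟨ε, -, -, -, hstr⟩ := SemistableHecke.local_of_newform hp2 hpC hg hp hpL
        (fun h => hp2N (h.trans hLN)) S θ hker A ρ hA hρirr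
      exact inertia_mul_eq_zero_of_strictAt (hstr rfl) hτ₀ hτ
    · exact inertia_mul_eq_zero_of_flatAt hp2 hpC
        (flatAt_of_trace p hp2 hpC hpL S θ A ρ H.cont hA hρirr) hτ₀ hρχ hρres hτ
  -- back to the point
  have e1 : ψ.mapMatrix ((M τ₀ - (M τ₀).det • 1) * (M τ - 1)) = 0 := by
    rw [map_mul, map_sub, map_sub, map_one]
    have e : ψ.mapMatrix ((M τ₀).det • (1 : Matrix (Fin 2) (Fin 2) T)) = (ρ τ₀).det • 1 := by
      rw [hρdet, ← map_cycChar hpT hpC ψ hloc, ← hdet]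
      ext i l
      simp [Matrix.one_apply, apply_ite ψ]
    rw [e]
    exact key
  ext i l
  rw [Matrix.map_apply, ← hφ, Matrix.zero_apply]
  have := congrFun (congrFun e1 i) l
  rw [RingHom.mapMatrix_apply, Matrix.map_apply, Matrix.zero_apply] at this
  rw [show φ _ = ψ _ from rfl, this, map_zero]

end FLTAgent.SemistableOrdinary
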